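/-
S38 / COMP-EIS3 (p = 3), leaf L4a RAM0 (helper8): characteristic `0`.
If a prime `ℓ ≡ 2 mod 3` divides `N` then `ν₃(N) = 0` and every zero of `j` in the function
field `F_N` over `Q̄` has order exactly `3`.

The ramification statement is helper30's `S36.NU.H30.ram_char0_zero` (Galois closure bound
`ord ≤ 3` + the count of the zeros); here only the arithmetic `ν₃(N) = 0` is added.
-/
import Fermat.Agent.S36.NU.H30_Ram

set_option autoImplicit false

noncomputable section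

open AlgebraicCurve ModularCurve

namespace Fermat.Agent.S38.CE3.H8

open Fermat.Agent.S24 (Kbar FN)

/-- `x² + x + 1 = 0` has no solution modulo a prime `ℓ ≡ 2 mod 3`. -/
theorem no_cube_root_mod_prime {ℓ : ℕ} (hℓ : ℓ.Prime) (h2 : ℓ % 3 = 2) (y : ZMod ℓ) :
    y ^ 2 + y + 1 ≠ 0 := by
  have : Fact ℓ.Prime := ⟨hℓ⟩
  intro hy
  have h3 : (3 : ZMod ℓ) ≠ 0 := by
    intro h
    have h' : ((3 : ℕ) : ZMod ℓ) = 0 := by exact_mod_cast h
    rw [ZMod.natCast_eq_zero_iff] at h'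
    have := Nat.le_of_dvd (by norm_num) h'
    have h5 : ℓ = 2 ∨ ℓ = 3 := by
      have := hℓ.two_le
      omega
    rcases h5 with rfl | rfl
    · omega
    · omega
  have hy3 : y ^ 3 = 1 := by linear_combination (y - 1) * hy
  have hy1 : y ≠ 1 := by
    rintro rfl
    apply h3
    linear_combination hy
  have hy0 : y ≠ 0 := by
    rintro rfl
    simp at hy3
  let u : (ZMod ℓ)ˣ := Units.mk0 y hy0
  have hu3 : u ^ 3 = 1 := by
    ext
    simpa [u] using hy3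
  have hu1 : u ≠ 1 := by
    intro hh
    apply hy1
    have := congrArg Units.val hh
    simpa [u] using this
  have hord : orderOf u = 3 := by
    have hdvd := orderOf_dvd_of_pow_eq_one hu3
    rcases (Nat.dvd_prime Nat.prime_three).mp hdvd with h1 | h1
    · exact absurd (orderOf_eq_one_iff.mp h1) hu1
    · exact h1
  have hcard : orderOf u ∣ Fintype.card (ZMod ℓ)ˣ := orderOf_dvd_card
  rw [ZMod.card_units_eq_totient, Nat.totient_prime hℓ, hord] at hcard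
  omega

/-- `ν₃(N) = 0` as soon as a prime `ℓ ≡ 2 mod 3` divides `N`. -/
theorem nuThree_eq_zero_of_prime_dvd {N ℓ : ℕ} (hℓ : ℓ.Prime) (h2 : ℓ % 3 = 2) (hd : ℓ ∣ N) :
    nuThree N = 0 := by
  unfold nuThree
  have : IsEmpty {x : ZMod N // x ^ 2 + x + 1 = 0} := by
    refine ⟨fun x => ?_⟩
    have hx := x.2
    have h := congrArg (ZMod.castHom hd (ZMod ℓ)) hx
    rw [map_add, map_add, map_pow, map_one, map_zero] at h
    exact no_cube_root_mod_prime hℓ h2 _ h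
  exact Nat.card_of_isEmpty

/-- **RAM0**, at every level divisible by a prime `ℓ ≡ 2 mod 3`: every zero of `j` in `F_N`
(over `Q̄`) has order `3`. -/
theorem ram0 (N : ℕ) [NeZero N] {ℓ : ℕ} (hℓ : ℓ.Prime) (h2 : ℓ % 3 = 2) (hd : ℓ ∣ N)
    (v : Place Kbar (FN N)) (hv : 0 < v.ord (Fermat.Agent.RED.H73.jF (L := Kbar) N)) :
    v.ord (Fermat.Agent.RED.H73.jF (L := Kbar) N) = 3 := by
  have h := Fermat.Agent.S36.NU.H30.ram_char0_zero N (nuThree_eq_zero_of_prime_dvd hℓ h2 hd) v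
    (by rw [map_zero, sub_zero]; exact hv)
  rw [map_zero, sub_zero] at h
  exact h

/-- **RAM0** (L4a): `ℓ ≡ 2 mod 3` prime: every place of `F_ℓ` (over `Q̄`) with `ord j > 0` has
`ord j = 3`. -/
theorem ram0_prime (ℓ : ℕ) [NeZero ℓ] (hℓ : ℓ.Prime) (h2 : ℓ % 3 = 2)
    (v : Place Kbar (FN ℓ)) (hv : 0 < v.ord (Fermat.Agent.RED.H73.jF (L := Kbar) ℓ)) :
    v.ord (Fermat.Agent.RED.H73.jF (L := Kbar) ℓ) = 3 :=
  ram0 ℓ hℓ h2 dvd_rfl v hv

/-- The orders of `j` at ALL places of a level divisible by `ℓ ≡ 2 mod 3`, away from the poles,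
are divisible by `3`. -/
theorem three_dvd_ord_j (N : ℕ) [NeZero N] {ℓ : ℕ} (hℓ : ℓ.Prime) (h2 : ℓ % 3 = 2) (hd : ℓ ∣ N)
    (v : Place Kbar (FN N)) (hv : 0 ≤ v.ord (Fermat.Agent.RED.H73.jF (L := Kbar) N)) :
    (3 : ℤ) ∣ v.ord (Fermat.Agent.RED.H73.jF (L := Kbar) N) := by
  rcases hv.lt_or_eq with h | h
  · rw [ram0 N hℓ h2 hd v h]
  · rw [← h]
    exact dvd_zero _

/-- `ram0` for the `S24` name of `j`. -/
theorem ram0' (N : ℕ) [NeZero N] {ℓ : ℕ} (hℓ : ℓ.Prime) (h2 : ℓ % 3 = 2) (hd : ℓ ∣ N)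
    (v : Place Kbar (FN N)) (hv : 0 < v.ord (Fermat.Agent.S24.jF N)) :
    v.ord (Fermat.Agent.S24.jF N) = 3 := by
  rw [Fermat.Agent.RED.H76.jF_eq] at hv ⊢
  exact ram0 N hℓ h2 hd v hv

end Fermat.Agent.S38.CE3.H8
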